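import Mathlib.NumberTheory.ModularForms.CongruenceSubgroups
import Fermat.Prelude.Thm_ModularForm_eq_zero_of_lt_order_qExpansion_of_isArithmetic

/-!
# Vanishing of cusp forms of small level

A cusp form of weight `k` on a congruence subgroup of index `i` with `k * i < 12` is zero, by the
Sturm bound; the index of `Γ₀(2)` is at most four.
-/

set_option autoImplicit false

open CongruenceSubgroup UpperHalfPlane Matrix.SpecialLinearGroup
open scoped MatrixGroups Pointwise ModularForm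

namespace Fermat.Agent.SmallLevel

lemma upperRightHom_natCast_eq_mapGL (N : ℕ) :
    Matrix.GeneralLinearGroup.upperRightHom (N : ℝ) = mapGL ℝ (ModularGroup.T ^ (N : ℤ)) := by
  refine Units.ext ?_
  rw [mapGL_coe_matrix, map_apply_coe, RingHom.mapMatrix_apply, ModularGroup.coe_T_zpow]
  ext i j
  fin_cases i <;> fin_cases j <;> simp [Matrix.GeneralLinearGroup.upperRightHom]

/-- If `Γ(N) ≤ Γ`, then `N` is a strict period of every `SL(2, ℤ)`-conjugate of `Γ`. -/
lemma natCast_mem_strictPeriods_conj {N : ℕ} {Γ : Subgroup SL(2, ℤ)}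
    (hΓ : CongruenceSubgroup.Gamma N ≤ Γ) (γ : SL(2, ℤ)) :
    (N : ℝ) ∈ (ConjAct.toConjAct (mapGL ℝ γ) • (Γ : Subgroup (GL (Fin 2) ℝ))).strictPeriods := by
  have hT : γ⁻¹ * ModularGroup.T ^ (N : ℤ) * γ ∈ CongruenceSubgroup.Gamma N := by
    have hmem : ModularGroup.T ^ (N : ℤ) ∈ CongruenceSubgroup.Gamma N := by
      have := ModularGroup_T_pow_mem_Gamma (N : ℤ) (N : ℤ) dvd_rfl
      rwa [Int.natAbs_natCast] at this
    have := (Gamma_normal N).conj_mem _ hmem γ⁻¹
    rwa [inv_inv] at this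
  rw [Subgroup.mem_strictPeriods_iff, upperRightHom_natCast_eq_mapGL,
    Subgroup.mem_pointwise_smul_iff_inv_smul_mem, ← ConjAct.toConjAct_inv,
    ConjAct.toConjAct_smul, inv_inv, ← map_inv, ← map_mul, ← map_mul]
  exact Subgroup.mem_map_of_mem _ (hΓ hT)

/-- `Γ(N)` is contained in `Γ₀(N)`. -/
lemma Gamma_le_Gamma0 (N : ℕ) : CongruenceSubgroup.Gamma N ≤ CongruenceSubgroup.Gamma0 N := by
  intro g hg
  rw [Gamma_mem] at hg
  rw [Gamma0_mem]
  exact hg.2.2.1

/-- The first column mod `2` separates left cosets of `Γ₀(2)`, so the index is at most `4`. -/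
lemma index_Gamma0_two_le : (CongruenceSubgroup.Gamma0 2).index ≤ 4 := by
  let col : SL(2, ℤ) → ZMod 2 × ZMod 2 := fun g ↦ ((g 0 0 : ZMod 2), (g 1 0 : ZMod 2))
  have hinv : ∀ a b : SL(2, ℤ), col a = col b ↔ a⁻¹ * b ∈ CongruenceSubgroup.Gamma0 2 := by
    intro a b
    have hentry : ((a⁻¹ * b) 1 0 : ℤ) = -(a 1 0) * b 0 0 + a 0 0 * b 1 0 := by
      rw [Matrix.SpecialLinearGroup.coe_mul, Matrix.mul_apply, Fin.sum_univ_two,
        Matrix.SpecialLinearGroup.SL2_inv_expl a]
      simp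
    have hdet : ((a 0 0 : ZMod 2)) * a 1 1 - a 0 1 * a 1 0 = 1 := by
      have := a.2
      rw [Matrix.det_fin_two] at this
      simpa using congr_arg (Int.cast : ℤ → ZMod 2) this
    have hdet' : ((b 0 0 : ZMod 2)) * b 1 1 - b 0 1 * b 1 0 = 1 := by
      have := b.2
      rw [Matrix.det_fin_two] at this
      simpa using congr_arg (Int.cast : ℤ → ZMod 2) this
    rw [Gamma0_mem, hentry]
    simp only [col, Prod.ext_iff, Int.cast_add, Int.cast_mul, Int.cast_neg]
    revert hdet hdet'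
    generalize (a 0 0 : ZMod 2) = p, (a 0 1 : ZMod 2) = q, (a 1 0 : ZMod 2) = r,
      (a 1 1 : ZMod 2) = s, (b 0 0 : ZMod 2) = p', (b 0 1 : ZMod 2) = q',
      (b 1 0 : ZMod 2) = r', (b 1 1 : ZMod 2) = s'
    revert p q r s p' q' r' s'
    decide
  let φ : SL(2, ℤ) ⧸ CongruenceSubgroup.Gamma0 2 → ZMod 2 × ZMod 2 :=
    Quotient.lift col fun a b hab ↦ (hinv a b).mpr (QuotientGroup.leftRel_apply.mp hab)
  have hφ : Function.Injective φ := by
    intro x y hxy
    induction x using Quotient.inductionOn with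
    | h a =>
      induction y using Quotient.inductionOn with
      | h b => exact QuotientGroup.eq.mpr ((hinv a b).mp hxy)
  have := Nat.card_le_card_of_injective φ hφ
  simpa [Subgroup.index_eq_card] using this

/-- A cusp form on a congruence subgroup with `k * index < 12` vanishes. -/
lemma cuspForm_eq_zero_of_index_lt {N : ℕ} [NeZero N] {k : ℕ} {Γ : Subgroup SL(2, ℤ)}
    [Γ.FiniteIndex] (hΓ : CongruenceSubgroup.Gamma N ≤ Γ) (hidx : k * Γ.index < 12)
    (f : CuspForm (Γ : Subgroup (GL (Fin 2) ℝ)) (k : ℤ)) : f = 0 := by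
  have hN : (0 : ℝ) < N := by exact_mod_cast Nat.pos_of_ne_zero (NeZero.ne N)
  have hper : (N : ℝ) ∈ (Γ : Subgroup (GL (Fin 2) ℝ)).strictPeriods := by
    simpa using natCast_mem_strictPeriods_conj hΓ 1
  have : Fact (IsCusp OnePoint.infty (Γ : Subgroup (GL (Fin 2) ℝ))) :=
    ⟨Subgroup.isCusp_of_mem_strictPeriods hN hper⟩
  let g : ModularForm (Γ : Subgroup (GL (Fin 2) ℝ)) (k : ℤ) := CuspForm.toModularFormₗ f
  have hrel : (Γ : Subgroup (GL (Fin 2) ℝ)).relIndex 𝒮ℒ = Γ.index := by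
    rw [MonoidHom.range_eq_map, Subgroup.relIndex_map_map_of_injective _ _ mapGL_injective,
      Subgroup.relIndex_top_right]
  have hg : g = 0 := by
    refine ModularForm.eq_zero_of_lt_order_qExpansion_of_isArithmetic g (M := N)
      (Nat.pos_of_ne_zero (NeZero.ne N)) (natCast_mem_strictPeriods_conj hΓ) ?_
    have hzero : (((k : ℤ) * (Γ.index : ℕ)).toNat / 12 : ℕ) = 0 := by
      rw [← Int.natCast_mul, Int.toNat_natCast]; omega
    rw [hrel, hzero]
    simp only [mul_zero, Nat.cast_zero]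
    rw [pos_iff_ne_zero, PowerSeries.order_ne_zero_iff_constCoeff_eq_zero,
      ← PowerSeries.coeff_zero_eq_constantCoeff_apply]
    exact CuspFormClass.qExpansion_coeff_zero f hN hper
  ext z
  exact DFunLike.congr_fun hg z

end Fermat.Agent.SmallLevel
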